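import Fermat.Agent.Curve.Descent.CoeffDescent

/-!
Coefficientwise descent for Laurent series along a field extension `L / K`.
-/

set_option autoImplicit false

noncomputable section

namespace FermatLib.Curve

open ModularCurve

variable {K L : Type*} [Field K] [Field L] [Algebra K L] {ι : Type*}

variable (L) in
/-- The coefficient vector of a Laurent series. -/
def coeffVec : LaurentSeries L →ₗ[L] (ℤ → L) where
  toFun x n := x.coeff n
  map_add' x y := by
    ext n
    simp
  map_smul' c x := by
    ext n
    simp

@[simp]
theorem coeffVec_apply (x : LaurentSeries L) (n : ℤ) : coeffVec L x n = x.coeff n := rfl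

theorem coeffVec_injective : Function.Injective (coeffVec L) := fun _ _ h =>
  HahnSeries.ext h

theorem coeffMap_injective (f : K →+* L) : Function.Injective (coeffMap f) := fun _ _ h =>
  HahnSeries.ext <| funext fun n => f.injective (congrArg (fun z : LaurentSeries L => z.coeff n) h)

/-- A Laurent series comes from `K` iff all its coefficients do. -/
theorem mem_range_coeffMap_iff {x : LaurentSeries L} :
    x ∈ (coeffMap (algebraMap K L)).range ↔ ∀ n, x.coeff n ∈ (algebraMap K L).range := by
  refine ⟨?_, fun h => ?_⟩
  · rintro ⟨y, rfl⟩ n
    exact ⟨y.coeff n, rfl⟩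
  · choose c hc using h
    refine ⟨⟨c, x.isPWO_support.mono fun n hn => ?_⟩, HahnSeries.ext (funext hc)⟩
    rw [HahnSeries.mem_support, ← hc n]
    simpa using hn

/-- Laurent series over `K` that are `K`-independent stay `L`-independent. -/
theorem linearIndependent_coeffMap {v : ι → LaurentSeries K} (h : LinearIndependent K v) :
    LinearIndependent L fun i => coeffMap (algebraMap K L) (v i) := by
  have h' : LinearIndependent K (coeffVec K ∘ v) :=
    h.map' (coeffVec K) (LinearMap.ker_eq_bot.mpr coeffVec_injective)
  exact LinearIndependent.of_comp (coeffVec L) (linearIndependent_vecMap (L := L) h')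

/-- A series over `K` in the `L`-span of series over `K` is in their `K`-span. -/
theorem mem_span_of_coeffMap_mem_span {S : Set (LaurentSeries K)} {f : LaurentSeries K}
    (h : coeffMap (algebraMap K L) f ∈
      Submodule.span L (coeffMap (algebraMap K L) '' S)) : f ∈ Submodule.span K S := by
  have h1 := Submodule.apply_mem_span_image_of_mem_span (coeffVec L) h
  have h2 : vecMap L (coeffVec K f) ∈ Submodule.span L (vecMap L '' (coeffVec K '' S)) := by
    rwa [Set.image_image] at h1 ⊢
  have h3 := mem_span_of_vecMap_mem_span h2
  rw [← Submodule.map_span] at h3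
  obtain ⟨g, hg, hgf⟩ := h3
  rwa [← coeffVec_injective hgf]

end FermatLib.Curve
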