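import Fermat.Agent.Curve.Descent.ConstExt
import Fermat.Agent.Curve.Descent.LaurentDescent
import Fermat.Prelude.Def_ModularCurve_ArithmeticGalois

/-!
Fields of Laurent series: extension of coefficients is an extension of constants; the case of
the function field of `X₀(N)` over `ℚ̄` and over `ℂ`.
-/

set_option autoImplicit false

noncomputable section

namespace FermatLib.Curve

open ModularCurve AlgebraicCurve

section General

variable {K L : Type*} [Field K] [Field L] [Algebra K L]
variable (F : IntermediateField K (LaurentSeries K)) (E : IntermediateField L (LaurentSeries L))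

/-- Extension of coefficients between fields of Laurent series. -/
def seriesFieldMap (hFE : ∀ f ∈ F, coeffMap (algebraMap K L) f ∈ E) : F →+* E :=
  ((coeffMap (algebraMap K L)).comp (algebraMap F (LaurentSeries K))).codRestrict E
    fun f => hFE _ f.2

@[simp]
theorem coe_seriesFieldMap (hFE : ∀ f ∈ F, coeffMap (algebraMap K L) f ∈ E) (f : F) :
    (seriesFieldMap F E hFE f : LaurentSeries L) = coeffMap (algebraMap K L) (f : LaurentSeries K) :=
  rfl

omit [Algebra K L] in
theorem coe_smul_series {K : Type*} [Field K] (F : IntermediateField K (LaurentSeries K))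
    (c : K) (f : F) : ((c • f : F) : LaurentSeries K) = c • (f : LaurentSeries K) := by
  ext n
  rw [Algebra.smul_def, MulMemClass.coe_mul]
  show (algebraMap K (LaurentSeries K) c * (f : LaurentSeries K)).coeff n = _
  rw [algebraMap_laurentSeries_eq_single, HahnSeries.coeff_single_zero_mul,
    HahnSeries.coeff_smul, smul_eq_mul]

/-- Linear disjointness for fields of Laurent series. -/
theorem isConstantExtension_seriesFieldMap
    (hE : E = IntermediateField.adjoin L (coeffMap (algebraMap K L) '' (F : Set (LaurentSeries K))))
    (hFE : ∀ f ∈ F, coeffMap (algebraMap K L) f ∈ E) :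
    IsConstantExtension K L (seriesFieldMap F E hFE) where
  commutes a := Subtype.ext <| by
    show coeffMap (algebraMap K L) (algebraMap K (LaurentSeries K) a) =
      algebraMap L (LaurentSeries L) (algebraMap K L a)
    rw [algebraMap_laurentSeries_eq_single, algebraMap_laurentSeries_eq_single, coeffMap_single]
  linearIndependent_fin {n v} hv := by
    have hK : LinearIndependent K fun j => (v j : LaurentSeries K) := by
      rw [linearIndependent_iff'] at hv ⊢
      intro s c hc
      refine hv s c (Subtype.ext ?_)
      rw [ZeroMemClass.coe_zero, ← hc, AddSubmonoidClass.coe_finsetSum]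
      exact Finset.sum_congr rfl fun j _ => coe_smul_series F (c j) (v j)
    have hL := linearIndependent_coeffMap (L := L) hK
    rw [linearIndependent_iff'] at hL ⊢
    intro s c hc
    refine hL s c ?_
    rw [← ZeroMemClass.coe_zero E, ← hc, AddSubmonoidClass.coe_finsetSum]
    exact Finset.sum_congr rfl fun j _ =>
      (coe_smul_series E (c j) (seriesFieldMap F E hFE (v j))).symm
  adjoin_eq_top := by
    refine IntermediateField.map_injective E.val ?_
    rw [IntermediateField.adjoin_map, ← AlgHom.fieldRange_eq_map,
      IntermediateField.fieldRange_val]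
    conv_rhs => rw [hE]
    congr 1
    ext y
    constructor
    · rintro ⟨_, ⟨f, rfl⟩, rfl⟩
      exact ⟨f, f.2, rfl⟩
    · rintro ⟨f, hf, rfl⟩
      exact ⟨_, ⟨⟨f, hf⟩, rfl⟩, rfl⟩

end General

section BaseChange

variable (K L : Type*) [Field K] [Field L] [Algebra K L] [Algebra ℚ K] [Algebra ℚ L]
variable (F₀ : IntermediateField ℚ (LaurentSeries ℚ))

theorem coeffMap_algebraMap_coeffEmb (x : LaurentSeries ℚ) :
    coeffMap (algebraMap K L) (coeffEmb K x) = coeffEmb L x := by
  rw [coeffEmb, coeffMap_coeffMap]
  exact coeffMap_congr (Subsingleton.elim _ _) x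

theorem coeffMap_mem_baseChange {f : LaurentSeries K} (hf : f ∈ laurentBaseChange K F₀) :
    coeffMap (algebraMap K L) f ∈ laurentBaseChange L F₀ := by
  induction hf using IntermediateField.adjoin_induction with
  | mem y hy =>
    obtain ⟨x, hx, rfl⟩ := hy
    rw [coeffMap_algebraMap_coeffEmb]
    exact coeffEmb_mem_laurentBaseChange L hx
  | algebraMap a =>
    rw [algebraMap_laurentSeries_eq_single, coeffMap_single, ← algebraMap_laurentSeries_eq_single]
    exact (laurentBaseChange L F₀).algebraMap_mem _
  | add y z _ _ hy hz => simpa using add_mem hy hz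
  | mul y z _ _ hy hz => simpa using mul_mem hy hz
  | inv y _ hy => simpa using inv_mem hy

theorem laurentBaseChange_eq_adjoin :
    laurentBaseChange L F₀ = IntermediateField.adjoin L
      (coeffMap (algebraMap K L) '' (laurentBaseChange K F₀ : Set (LaurentSeries K))) := by
  refine le_antisymm (IntermediateField.adjoin_le_iff.mpr ?_)
    (IntermediateField.adjoin_le_iff.mpr ?_)
  · rintro _ ⟨x, hx, rfl⟩
    exact IntermediateField.subset_adjoin L _
      ⟨coeffEmb K x, coeffEmb_mem_laurentBaseChange K hx, coeffMap_algebraMap_coeffEmb K L x⟩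
  · rintro _ ⟨f, hf, rfl⟩
    exact coeffMap_mem_baseChange K L F₀ hf

/-- `laurentBaseChange K F₀ → laurentBaseChange L F₀`. -/
def baseChangeMap : laurentBaseChange K F₀ →+* laurentBaseChange L F₀ :=
  seriesFieldMap _ _ fun _ => coeffMap_mem_baseChange K L F₀

@[simp]
theorem coe_baseChangeMap (f : laurentBaseChange K F₀) :
    (baseChangeMap K L F₀ f : LaurentSeries L) = coeffMap (algebraMap K L) (f : LaurentSeries K) :=
  rfl

theorem isConstantExtension_baseChangeMap :
    IsConstantExtension K L (baseChangeMap K L F₀) :=
  isConstantExtension_seriesFieldMap _ _ (laurentBaseChange_eq_adjoin K L F₀) _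

variable {K L}

/-- Equivariance for compatible automorphisms of `L` and `K`. -/
theorem arithmeticGalois_smul_baseChangeMap (σ : L ≃ₐ[ℚ] L) (τ : K ≃ₐ[ℚ] K)
    (h : ∀ a, σ (algebraMap K L a) = algebraMap K L (τ a)) (f : laurentBaseChange K F₀) :
    arithmeticGalois F₀ σ • baseChangeMap K L F₀ f =
      baseChangeMap K L F₀ (arithmeticGalois F₀ τ • f) := by
  refine Subtype.ext ?_
  rw [coe_arithmeticGalois_smul, coe_baseChangeMap, coe_baseChangeMap, coe_arithmeticGalois_smul,
    coeffMap_coeffMap, coeffMap_coeffMap]
  exact coeffMap_congr (RingHom.ext h) _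

end BaseChange

section Rational

variable (L : Type*) [Field L] [Algebra ℚ L] (F₀ : IntermediateField ℚ (LaurentSeries ℚ))

/-- `F₀ → laurentBaseChange L F₀`. -/
def ratBaseChangeMap : F₀ →+* laurentBaseChange L F₀ :=
  seriesFieldMap _ _ fun _ hf => coeffEmb_mem_laurentBaseChange L hf

@[simp]
theorem coe_ratBaseChangeMap (f : F₀) :
    (ratBaseChangeMap L F₀ f : LaurentSeries L) = coeffEmb L (f : LaurentSeries ℚ) :=
  rfl

end Rational

section Modular

variable (N : ℕ)

attribute [local instance] qbarAlgebraComplex

/-- The function field of `X₀(N)` over `ℚ̄` inside the one over `ℂ`, along `complexEmbedding`. -/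
def barToComplex :
    modularFunctionFieldBar N →+* laurentBaseChange ℂ (modularFunctionFieldFull N) :=
  baseChangeMap (AlgebraicClosure ℚ) ℂ (modularFunctionFieldFull N)

@[simp]
theorem coe_barToComplex (f : modularFunctionFieldBar N) :
    (barToComplex N f : LaurentSeries ℂ) =
      coeffMap complexEmbedding.toRingHom (f : LaurentSeries (AlgebraicClosure ℚ)) :=
  rfl

theorem isConstantExtension_barToComplex :
    IsConstantExtension (AlgebraicClosure ℚ) ℂ (barToComplex N) :=
  isConstantExtension_baseChangeMap (AlgebraicClosure ℚ) ℂ _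

/-- Equivariance of `barToComplex` for compatible automorphisms of `ℂ` and `ℚ̄`. -/
theorem arithmeticGalois_smul_barToComplex (σ : ℂ ≃ₐ[ℚ] ℂ)
    (τ : AlgebraicClosure ℚ ≃ₐ[ℚ] AlgebraicClosure ℚ)
    (h : ∀ a, σ (complexEmbedding a) = complexEmbedding (τ a)) (f : modularFunctionFieldBar N) :
    arithmeticGalois (modularFunctionFieldFull N) σ • barToComplex N f =
      barToComplex N (arithmeticGalois (modularFunctionFieldFull N) τ • f) :=
  arithmeticGalois_smul_baseChangeMap _ σ τ h f

theorem conj_smul_barToComplex (f : modularFunctionFieldBar N) :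
    arithmeticGalois (modularFunctionFieldFull N) complexConjAlgEquiv • barToComplex N f =
      barToComplex N (arithmeticGalois (modularFunctionFieldFull N) complexConjugation • f) :=
  arithmeticGalois_smul_barToComplex N _ _
    (fun a => (complexEmbedding_complexConjugation a).symm) f

end Modular

end FermatLib.Curve
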