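import Mathlib
import Fermat.Prelude.Def_GaloisRep_ComplexConjugation

/-!
Automorphisms of an algebraically closed field over a subfield: an element with finite orbit
is algebraic; extension of automorphisms of `ℚ̄` to `ℂ` along `complexEmbedding`.
-/

set_option autoImplicit false

noncomputable section

namespace FermatLib.Curve

variable {K L : Type*} [Field K] [Field L] [Algebra K L] [IsAlgClosed L]

/-- An automorphism of the polynomial ring on a transcendence basis extends to the field. -/
theorem exists_ringEquiv_of_isTranscendenceBasis {ι : Type*} {x : ι → L}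
    (hx : IsTranscendenceBasis K x) (e : MvPolynomial ι K ≃+* MvPolynomial ι K) :
    ∃ σ : L ≃+* L, ∀ p, σ (MvPolynomial.aeval x p) = MvPolynomial.aeval x (e p) := by
  have := IsAlgClosed.isAlgClosure_of_transcendence_basis x hx
  let E := hx.1.aevalEquiv.toRingEquiv
  refine ⟨IsAlgClosure.equivOfEquiv L L ((E.symm.trans e).trans E), fun p => ?_⟩
  rw [← hx.1.algebraMap_aevalEquiv p, IsAlgClosure.equivOfEquiv_algebraMap]
  show algebraMap _ L (E (e (E.symm (E p)))) = _
  rw [E.symm_apply_apply]
  exact hx.1.algebraMap_aevalEquiv (e p)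

/-- Every automorphism of the base field extends to an algebraically closed extension. -/
theorem exists_ringEquiv_extends (τ : K ≃+* K) :
    ∃ σ : L ≃+* L, ∀ a, σ (algebraMap K L a) = algebraMap K L (τ a) := by
  obtain ⟨s, hs⟩ := exists_isTranscendenceBasis K L
  obtain ⟨σ, hσ⟩ := exists_ringEquiv_of_isTranscendenceBasis hs (MvPolynomial.mapEquiv _ τ)
  exact ⟨σ, fun a => by simpa using hσ (MvPolynomial.C a)⟩

/-- Translation by a constant of a transcendental element extends to an automorphism. -/
theorem exists_algEquiv_apply_eq_add {x : L} (hx : Transcendental K x) (c : K) :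
    ∃ σ : L ≃ₐ[K] L, σ x = x + algebraMap K L c := by
  classical
  have hind : AlgebraicIndepOn K id ({x} : Set L) := by
    rw [AlgebraicIndepOn, algebraicIndependent_unique_type_iff]
    exact hx
  obtain ⟨t, ht, htb⟩ := exists_isTranscendenceBasis_superset hind
  let i : t := ⟨x, ht rfl⟩
  let sh : K → MvPolynomial t K →ₐ[K] MvPolynomial t K := fun d =>
    MvPolynomial.aeval fun j =>
      if j = i then MvPolynomial.X j + MvPolynomial.C d else MvPolynomial.X j
  have key : ∀ d d' : K, d + d' = 0 → (sh d).comp (sh d') = AlgHom.id K _ := by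
    intro d d' h
    refine MvPolynomial.algHom_ext fun j => ?_
    rcases eq_or_ne j i with rfl | hj
    · simp [sh, add_assoc, ← MvPolynomial.C_add, h]
    · simp [sh, hj]
  let e : MvPolynomial t K ≃ₐ[K] MvPolynomial t K :=
    AlgEquiv.ofAlgHom (sh c) (sh (-c)) (key _ _ (add_neg_cancel c)) (key _ _ (neg_add_cancel c))
  obtain ⟨σ, hσ⟩ := exists_ringEquiv_of_isTranscendenceBasis htb e.toRingEquiv
  refine ⟨AlgEquiv.ofRingEquiv (f := σ) fun a => ?_, ?_⟩
  · simpa [e, sh] using hσ (MvPolynomial.C a)
  · simpa [e, sh, i] using hσ (MvPolynomial.X i)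

variable [IsAlgClosed K]

/-- An element with finitely many conjugates over an algebraically closed subfield lies in it. -/
theorem mem_range_of_finite_orbit {x : L}
    (h : (Set.range fun σ : L ≃ₐ[K] L => σ x).Finite) : x ∈ (algebraMap K L).range := by
  by_contra hx
  have htr : Transcendental K x := fun ha => hx <| by
    have := ha.isIntegral
    have : FiniteDimensional K (IntermediateField.adjoin K {x}) :=
      IntermediateField.adjoin.finiteDimensional this
    have : Algebra.IsIntegral K (IntermediateField.adjoin K {x}) := Algebra.IsIntegral.of_finite _ _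
    obtain ⟨a, ha⟩ := (IsAlgClosed.algebraMap_bijective_of_isIntegral (k := K)
      (K := IntermediateField.adjoin K {x})).2 ⟨x, IntermediateField.mem_adjoin_simple_self K x⟩
    exact ⟨a, congrArg Subtype.val ha⟩
  refine (Set.infinite_range_of_injective (f := fun c : K => x + algebraMap K L c)
    (fun a b hab => (algebraMap K L).injective (add_left_cancel hab))) (h.subset ?_)
  rintro _ ⟨c, rfl⟩
  exact exists_algEquiv_apply_eq_add htr c

theorem mem_range_of_forall_fixed {x : L} (h : ∀ σ : L ≃ₐ[K] L, σ x = x) :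
    x ∈ (algebraMap K L).range :=
  mem_range_of_finite_orbit <| (Set.finite_singleton x).subset <| by
    rintro _ ⟨σ, rfl⟩
    exact h σ

/-- `ℂ` as a `ℚ̄`-algebra through `complexEmbedding` (use as a local instance). -/
abbrev qbarAlgebraComplex : Algebra (AlgebraicClosure ℚ) ℂ :=
  complexEmbedding.toRingHom.toAlgebra

/-- Every automorphism of `ℚ̄` extends to `ℂ` along `complexEmbedding`. -/
theorem exists_complexAlgEquiv_extends (τ : AlgebraicClosure ℚ ≃ₐ[ℚ] AlgebraicClosure ℚ) :
    ∃ σ : ℂ ≃ₐ[ℚ] ℂ, ∀ a, σ (complexEmbedding a) = complexEmbedding (τ a) := by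
  let := qbarAlgebraComplex
  obtain ⟨σ, hσ⟩ := exists_ringEquiv_extends (L := ℂ) τ.toRingEquiv
  exact ⟨AlgEquiv.ofRingEquiv (f := σ) fun q => map_ratCast σ q, hσ⟩

theorem mem_range_complexEmbedding_of_finite_orbit {z : ℂ}
    (h : (Set.range fun σ : ℂ ≃ₐ[ℚ] ℂ => σ z).Finite) :
    z ∈ complexEmbedding.range := by
  let := qbarAlgebraComplex
  obtain ⟨a, ha⟩ := mem_range_of_finite_orbit (K := AlgebraicClosure ℚ) (x := z) <| h.subset <| by
    rintro _ ⟨σ, rfl⟩
    exact ⟨AlgEquiv.ofRingEquiv (f := σ.toRingEquiv) fun q => map_ratCast σ q, rfl⟩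
  exact ⟨a, ha⟩

end FermatLib.Curve
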