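import Fermat.Agent.Curve.Descent.AutFixed
import Fermat.Prelude.Def_ModularCurve_LaurentCoeff

/-!
Coefficientwise descent along a field extension `L / K`: linear disjointness of vectors and
Laurent series with entries in `K`, stable finite dimensional subspaces, roots of polynomials.
-/

set_option autoImplicit false

noncomputable section

namespace FermatLib.Curve

open ModularCurve

variable {K L : Type*} [Field K] [Field L] [Algebra K L] {α ι : Type*}

variable (L) in
/-- Entrywise extension of scalars of vectors. -/
def vecMap : (α → K) →ₗ[K] (α → L) where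
  toFun f a := algebraMap K L (f a)
  map_add' f g := by
    ext a
    simp
  map_smul' c f := by
    ext a
    simp [Algebra.smul_def]

@[simp]
theorem vecMap_apply (f : α → K) (a : α) : vecMap L f a = algebraMap K L (f a) := rfl

/-- `K`-independent vectors stay `L`-independent. -/
theorem linearIndependent_vecMap {v : ι → α → K} (h : LinearIndependent K v) :
    LinearIndependent L fun i => vecMap L (v i) := by
  rw [linearIndependent_iff'] at h ⊢
  intro s c hc i hi
  refine (Module.forall_dual_apply_eq_zero_iff K (c i)).mp fun φ => h s (fun j => φ (c j)) ?_ i hi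
  ext a
  have := congrArg φ (congrFun hc a)
  simp only [Finset.sum_apply, Pi.smul_apply, vecMap_apply, smul_eq_mul, map_sum,
    Pi.zero_apply, map_zero] at this
  rw [Finset.sum_apply, Pi.zero_apply, ← this]
  refine Finset.sum_congr rfl fun j _ => ?_
  rw [mul_comm (c j), ← Algebra.smul_def, map_smul, Pi.smul_apply, smul_eq_mul, smul_eq_mul,
    mul_comm]

/-- A vector over `K` in the `L`-span of vectors over `K` is in their `K`-span. -/
theorem mem_span_of_vecMap_mem_span {S : Set (α → K)} {f : α → K}
    (h : vecMap L f ∈ Submodule.span L (vecMap L '' S)) : f ∈ Submodule.span K S := by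
  obtain ⟨φ, hφ⟩ := Module.Projective.exists_dual_eq_one K (one_ne_zero (α := L))
  obtain ⟨c, hc, hsum⟩ := Finsupp.mem_span_image_iff_linearCombination L |>.mp h
  have : f = ∑ g ∈ c.support, φ (c g) • g := by
    ext a
    have := congrArg φ (congrFun hsum a)
    simp only [Finsupp.linearCombination_apply, Finsupp.sum, Finset.sum_apply, Pi.smul_apply,
      vecMap_apply, map_sum, smul_eq_mul] at this
    rw [← mul_one (f a), ← hφ, ← smul_eq_mul, ← map_smul, ← Algebra.algebraMap_eq_smul_one,
      ← this, Finset.sum_apply]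
    refine Finset.sum_congr rfl fun g _ => ?_
    rw [← Algebra.commutes, ← Algebra.smul_def, map_smul, smul_eq_mul, Pi.smul_apply, smul_eq_mul,
      mul_comm]
  rw [this]
  exact Submodule.sum_mem _ fun g hg => Submodule.smul_mem _ _ (Submodule.subset_span (hc hg))

variable [IsAlgClosed K] [IsAlgClosed L]

/-- A vector fixed by `Aut(L/K)` has entries in `K`. -/
theorem mem_range_vecMap_of_fixed {v : α → L}
    (h : ∀ σ : L ≃ₐ[K] L, ∀ a, σ (v a) = v a) : v ∈ Set.range (vecMap (K := K) L) := by
  choose f hf using fun a => mem_range_of_forall_fixed (K := K) fun σ => h σ a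
  exact ⟨f, funext hf⟩

/-- Echelon form of descent: a finite dimensional `Aut(L/K)`-stable space of vectors has a
basis with entries in `K`, dual to some coordinates. -/
theorem exists_rational_coords_of_stable (V : Submodule L (α → L)) [FiniteDimensional L V]
    (h : ∀ σ : L ≃ₐ[K] L, ∀ v ∈ V, (fun a => σ (v a)) ∈ V) :
    ∃ (n : ℕ) (s : Fin n → α) (e : Fin n → α → K),
      (∀ i, vecMap L (e i) ∈ V) ∧ (∀ i j, e i (s j) = if i = j then 1 else 0) ∧
        ∀ v ∈ V, v = ∑ i, v (s i) • vecMap L (e i) := by
  induction hd : Module.finrank L V using Nat.strong_induction_on generalizing V with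
  | _ d ih =>
    subst hd
    rcases eq_or_ne V ⊥ with rfl | hV
    · exact ⟨0, Fin.elim0, Fin.elim0, fun i => i.elim0, fun i => i.elim0,
        fun v hv => by simpa using hv⟩
    obtain ⟨w₀, hw₀, hne⟩ := Submodule.exists_mem_ne_zero_of_ne_bot hV
    obtain ⟨a, ha⟩ := Function.ne_iff.mp hne
    let V' : Submodule L (α → L) := V ⊓ LinearMap.ker (LinearMap.proj a)
    haveI : FiniteDimensional L V' := Submodule.finiteDimensional_of_le inf_le_left
    have hlt : V' < V := lt_of_le_of_ne inf_le_left fun he => ha <| by
      simpa [V'] using (he.ge hw₀).2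
    obtain ⟨n, s, e, he, hdual, hdec⟩ := ih _ (Submodule.finrank_lt_finrank_of_lt hlt) V'
      (fun σ v hv => ⟨h σ v hv.1, by
        simpa [V', LinearMap.mem_ker] using congrArg σ (LinearMap.mem_ker.mp hv.2)⟩) rfl
    have hea : ∀ i, e i a = 0 := fun i => by
      simpa [V', LinearMap.mem_ker] using (he i).2
    let u : α → L := (w₀ a)⁻¹ • w₀
    have hu : u ∈ V := V.smul_mem _ hw₀
    have hua : u a = 1 := inv_mul_cancel₀ ha
    let w : α → L := u - ∑ i, u (s i) • vecMap L (e i)
    have hw : w ∈ V :=
      V.sub_mem hu (Submodule.sum_mem _ fun i _ => V.smul_mem _ (he i).1)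
    have hwa : w a = 1 := by simp [w, hua, hea, Finset.sum_apply]
    have key : ∀ z ∈ V, z a = 0 → (∀ i, z (s i) = 0) → z = 0 := fun z hz hza hzs => by
      rw [hdec z ⟨hz, hza⟩]
      simp [hzs]
    have hws : ∀ i, w (s i) = 0 := fun j => by simp [w, hdual, Finset.sum_apply]
    obtain ⟨f, hf⟩ := mem_range_vecMap_of_fixed (K := K) (v := w) fun σ b => by
      refine sub_eq_zero.mp (congrFun (key _ (V.sub_mem (h σ w hw) hw) ?_ fun i => ?_) b)
      · simp [hwa]
      · simp [hws i]
    have hfa : f a = 1 := (algebraMap K L).injective (by rw [map_one, ← hwa, ← hf]; rfl)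
    have hfs : ∀ i, f (s i) = 0 := fun i =>
      (algebraMap K L).injective (by rw [map_zero, ← hws i, ← hf]; rfl)
    refine ⟨n + 1, Fin.cons a s, Fin.cons f e, ?_, ?_, ?_⟩
    · refine Fin.cases ?_ (fun i => ?_)
      · simpa [hf] using hw
      · simpa using (he i).1
    · intro i j
      cases i using Fin.cases <;> cases j using Fin.cases <;>
        simp [hfa, hfs, hea, hdual, Fin.succ_ne_zero, (Fin.succ_ne_zero _).symm]
    · intro v hv
      have hz : v - v a • w ∈ V' :=
        ⟨V.sub_mem hv (V.smul_mem _ hw), by simp [hwa]⟩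
      have := hdec _ hz
      simp only [Pi.sub_apply, Pi.smul_apply, hws, smul_zero, sub_zero] at this
      rw [Fin.sum_univ_succ]
      simpa [hf, sub_eq_iff_eq_add'] using this

/-- Descent: a finite dimensional stable space of vectors is spanned by vectors over `K`. -/
theorem eq_span_rational_of_stable (V : Submodule L (α → L)) [FiniteDimensional L V]
    (h : ∀ σ : L ≃ₐ[K] L, ∀ v ∈ V, (fun a => σ (v a)) ∈ V) :
    V = Submodule.span L (vecMap L '' {f : α → K | vecMap L f ∈ V}) := by
  obtain ⟨n, s, e, he, -, hdec⟩ := exists_rational_coords_of_stable V h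
  refine le_antisymm (fun v hv => ?_) (Submodule.span_le.mpr ?_)
  · rw [hdec v hv]
    exact Submodule.sum_mem _ fun i _ =>
      Submodule.smul_mem _ _ (Submodule.subset_span ⟨e i, he i, rfl⟩)
  · rintro _ ⟨f, hf, rfl⟩
    exact hf

end FermatLib.Curve
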