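import Fermat.Agent.Curve.Descent.CoeffDescent
import Fermat.Prelude.Def_AlgebraicCurve_BaseChangeGalois

/-!
Extensions of constant fields `F ⊆ E` along `K ⊆ L`: `E` is generated by `L` and `F`, which are
linearly disjoint over `K`.
-/

set_option autoImplicit false

noncomputable section

namespace FermatLib.Curve

open AlgebraicCurve Polynomial

/-- `E` is the extension of the constant field `K` of `F` to `L`, along `i`. -/
structure IsConstantExtension (K L : Type*) [Field K] [Field L] [Algebra K L] {F E : Type*}
    [Field F] [Algebra K F] [Field E] [Algebra L E] (i : F →+* E) : Prop where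
  commutes : ∀ a : K, i (algebraMap K F a) = algebraMap L E (algebraMap K L a)
  linearIndependent_fin : ∀ {n : ℕ} {v : Fin n → F},
    LinearIndependent K v → LinearIndependent L fun j => i (v j)
  adjoin_eq_top : IntermediateField.adjoin L (Set.range i) = ⊤

namespace IsConstantExtension

variable {K L F E : Type*} [Field K] [Field L] [Algebra K L] [Field F] [Algebra K F]
  [Field E] [Algebra L E] {i : F →+* E}

/-- Linear disjointness for an arbitrary family. -/
theorem linearIndependent_map (h : IsConstantExtension K L i) {κ : Type*} {v : κ → F}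
    (hv : LinearIndependent K v) : LinearIndependent L fun j => i (v j) := by
  classical
  rw [linearIndependent_iff_finset_linearIndependent]
  intro t
  have h2 := h.linearIndependent_fin
    ((hv.comp _ Subtype.val_injective).comp _ t.equivFin.symm.injective)
  have h3 := h2.comp _ t.equivFin.injective
  simpa [Function.comp_def] using h3

theorem map_mem_span_image (h : IsConstantExtension K L i) {S : Set F} {f : F}
    (hf : f ∈ Submodule.span K S) : i f ∈ Submodule.span L (i '' S) := by
  induction hf using Submodule.span_induction with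
  | mem y hy => exact Submodule.subset_span ⟨y, hy, rfl⟩
  | zero => simp
  | add y z _ _ hy hz => rw [map_add]; exact add_mem hy hz
  | smul a y _ hy =>
    rw [Algebra.smul_def, map_mul, h.commutes, ← Algebra.smul_def]
    exact Submodule.smul_mem _ _ hy

/-- A common denominator and a common independent family for finitely many elements. -/
theorem exists_frame (h : IsConstantExtension K L i) (t : Finset E) :
    ∃ (n : ℕ) (f : Fin n → F), LinearIndependent K f ∧ ∃ d : Fin n → L,
      (∑ j, d j • i (f j)) ≠ 0 ∧
      ∀ e ∈ t, ∃ c : Fin n → L, e * (∑ j, d j • i (f j)) = ∑ j, c j • i (f j) := by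
  classical
  let R : Submodule L E := Submodule.span L (Set.range i)
  have hR : ∀ x y, x ∈ R → y ∈ R → x * y ∈ R := fun x y hx hy => by
    induction hx using Submodule.span_induction with
    | zero => simp
    | add a b _ _ ha hb => rw [add_mul]; exact add_mem ha hb
    | smul a b _ hb => rw [smul_mul_assoc]; exact R.smul_mem a hb
    | mem a ha =>
      obtain ⟨a, rfl⟩ := ha
      induction hy using Submodule.span_induction with
      | zero => simp
      | add a b _ _ ha hb => rw [mul_add]; exact add_mem ha hb
      | smul a b _ hb => rw [mul_smul_comm]; exact R.smul_mem a hb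
      | mem b hb =>
        obtain ⟨b, rfl⟩ := hb
        exact Submodule.subset_span ⟨a * b, map_mul i a b⟩
  have h1R : (1 : E) ∈ R := Submodule.subset_span ⟨1, map_one i⟩
  let A : Subalgebra L E :=
    { toSubsemiring :=
        { carrier := R
          mul_mem' := fun hx hy => hR _ _ hx hy
          one_mem' := h1R
          add_mem' := fun hx hy => add_mem hx hy
          zero_mem' := R.zero_mem }
      algebraMap_mem' := fun a => by
        rw [Algebra.algebraMap_eq_smul_one]
        exact R.smul_mem a h1R }
  have hden : ∀ e : E, ∃ s ∈ R, s ≠ 0 ∧ e * s ∈ R := by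
    intro e
    have he : e ∈ IntermediateField.adjoin L (Set.range i) := h.adjoin_eq_top ▸ trivial
    obtain ⟨r, hr, s, hs, rfl⟩ := IntermediateField.mem_adjoin_iff_div.mp he
    have hAR : Algebra.adjoin L (Set.range i) ≤ A :=
      Algebra.adjoin_le fun y hy => Submodule.subset_span hy
    rcases eq_or_ne s 0 with rfl | hs0
    · exact ⟨1, h1R, one_ne_zero, by simp [R.zero_mem]⟩
    · exact ⟨s, hAR hs, hs0, by rw [div_mul_cancel₀ _ hs0]; exact hAR hr⟩
  choose s hsR hs0 hes using hden
  let D : E := ∏ e ∈ t, s e
  have hD : D ∈ R := show D ∈ A from prod_mem fun e _ => (show s e ∈ A from hsR e)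
  have hD0 : D ≠ 0 := Finset.prod_ne_zero_iff.mpr fun e _ => hs0 e
  have heD : ∀ e ∈ t, e * D ∈ R := fun e he => by
    show e * (∏ e' ∈ t, s e') ∈ R
    rw [← Finset.mul_prod_erase t _ he, ← mul_assoc]
    exact hR _ _ (hes e) (show _ ∈ A from prod_mem fun e _ => (show s e ∈ A from hsR e))
  obtain ⟨T, hT, hTfin, hTmem⟩ : ∃ T : Set E, T ⊆ Set.range i ∧ T.Finite ∧
      ∀ y ∈ insert D (t.image (· * D)), y ∈ Submodule.span L T := by
    have : ∀ y ∈ insert D (t.image (· * D)), ∃ T : Finset E, (T : Set E) ⊆ Set.range i ∧
        y ∈ Submodule.span L (T : Set E) := fun y hy =>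
      Submodule.mem_span_finite_of_mem_span <| by
        rcases Finset.mem_insert.mp hy with rfl | hy
        · exact hD
        · obtain ⟨e, he, rfl⟩ := Finset.mem_image.mp hy
          exact heD e he
    choose! T hT hyT using this
    refine ⟨⋃ y ∈ insert D (t.image (· * D)), (T y : Set E), Set.iUnion₂_subset hT,
      (Finset.finite_toSet _).biUnion fun y _ => (T y).finite_toSet, fun y hy => ?_⟩
    exact Submodule.span_mono (Set.subset_iUnion₂ (s := fun y _ => (T y : Set E)) y hy) (hyT y hy)
  obtain ⟨T₀, hT₀, rfl⟩ : ∃ T₀ : Finset F, True ∧ i '' (T₀ : Set F) = T := by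
    refine ⟨(hTfin.preimage i.injective.injOn).toFinset, trivial, ?_⟩
    rw [Set.Finite.coe_toFinset, Set.image_preimage_eq_of_subset hT]
  let W := Submodule.span K (T₀ : Set F)
  haveI : FiniteDimensional K W := FiniteDimensional.span_of_finite K T₀.finite_toSet
  let bW := Module.finBasis K W
  have hspan : Submodule.span L (i '' (T₀ : Set F)) ≤
      Submodule.span L (Set.range fun j => i (bW j : F)) := by
    refine Submodule.span_le.mpr ?_
    rintro _ ⟨y, hy, rfl⟩
    have hy' : y ∈ Submodule.span K (Set.range fun j => (bW j : F)) := by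
      rw [Set.range_comp' Subtype.val bW, ← Submodule.coe_subtype, ← Submodule.map_span,
        bW.span_eq, Submodule.map_subtype_top]
      exact Submodule.subset_span hy
    have := h.map_mem_span_image hy'
    rwa [← Set.range_comp] at this
  have hco : ∀ y ∈ insert D (t.image (· * D)), ∃ c : Fin (Module.finrank K W) → L,
      ∑ j, c j • i (bW j : F) = y := fun y hy =>
    (Submodule.mem_span_range_iff_exists_fun L).mp (hspan (hTmem y hy))
  obtain ⟨d, hd⟩ := hco D (Finset.mem_insert_self _ _)
  refine ⟨_, fun j => (bW j : F), bW.linearIndependent.map' W.subtype W.ker_subtype, d,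
    by rwa [hd], fun e he => ?_⟩
  obtain ⟨c, hc⟩ := hco (e * D) (Finset.mem_insert_of_mem (Finset.mem_image_of_mem _ he))
  exact ⟨c, by rw [hd, hc]⟩

theorem linearIndependent_adjoin (h : IsConstantExtension K L i) {x : F} (hx : Transcendental K x)
    {κ : Type*} {b : κ → F} (hb : LinearIndependent (IntermediateField.adjoin K {x}) b) :
    LinearIndependent (IntermediateField.adjoin L {i x}) fun j => i (b j) := by
  classical
  let x' : IntermediateField.adjoin K {x} := IntermediateField.AdjoinSimple.gen K x
  have h1 : LinearIndependent K fun k : ℕ => x' ^ k := by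
    refine LinearIndependent.of_comp (IntermediateField.adjoin K {x}).val.toLinearMap ?_
    have := (Polynomial.basisMonomials K).linearIndependent.map' (Polynomial.aeval x).toLinearMap
      (LinearMap.ker_eq_bot.mpr (transcendental_iff_injective.mp hx))
    simpa [Function.comp_def, Polynomial.aeval_monomial, x'] using this
  have h2 : LinearIndependent K fun p : ℕ × κ => x' ^ p.1 • b p.2 :=
    linearIndependent_smul h1 hb
  have h3 : LinearIndependent L fun p : ℕ × κ => i x ^ p.1 * i (b p.2) := by
    have := h.linearIndependent_map h2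
    simpa [Algebra.smul_def, x'] using this
  open scoped IntermediateField.algebraAdjoinAdjoin in
  refine LinearIndependent.localization (IntermediateField.adjoin L {i x})
    (nonZeroDivisors (Algebra.adjoin L ({i x} : Set E))) ?_
  rw [linearIndependent_iff']
  intro s g hg j hj
  have : ∀ a : Algebra.adjoin L ({i x} : Set E), ∃ p : L[X], Polynomial.aeval (i x) p = (a : E) :=
    fun a => (SetLike.ext_iff.mp (Algebra.adjoin_singleton_eq_range_aeval L (i x)) _).mp a.2
  choose p hp using this
  have key : ∑ q ∈ (s.biUnion fun j => (p (g j)).support.image fun k => (k, j)),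
      (p (g q.2)).coeff q.1 • (i x ^ q.1 * i (b q.2)) = 0 := by
    rw [Finset.sum_biUnion]
    · rw [← hg]
      refine Finset.sum_congr rfl fun j _ => ?_
      rw [Finset.sum_image (fun a _ b _ hab => congrArg Prod.fst hab)]
      show _ = ((g j : E)) * i (b j)
      rw [← hp, Polynomial.aeval_def, Polynomial.eval₂_eq_sum, Polynomial.sum_def, Finset.sum_mul]
      exact Finset.sum_congr rfl fun k _ => by rw [Algebra.smul_def, mul_assoc]
    · intro a _ b _ hab
      refine Finset.disjoint_left.mpr fun q hq hq' => ?_
      obtain ⟨k, _, rfl⟩ := Finset.mem_image.mp hq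
      obtain ⟨k', _, hk'⟩ := Finset.mem_image.mp hq'
      exact hab (congrArg Prod.snd hk').symm
  have hp0 : p (g j) = 0 := by
    refine Polynomial.ext fun k => ?_
    by_cases hk : k ∈ (p (g j)).support
    · exact (linearIndependent_iff'.mp h3 _ (fun q => (p (g q.2)).coeff q.1) key (k, j)
        (Finset.mem_biUnion.mpr ⟨j, hj, Finset.mem_image_of_mem _ hk⟩)).trans
        (Polynomial.coeff_zero k).symm
    · rw [Polynomial.notMem_support_iff.mp hk, Polynomial.coeff_zero]
  exact Subtype.ext (by rw [← hp (g j), hp0, map_zero]; rfl)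

theorem mem_span_of_map_mem_span (h : IsConstantExtension K L i) {S : Set F} {f : F}
    (hf : i f ∈ Submodule.span L (i '' S)) : f ∈ Submodule.span K S := by
  by_contra hne
  obtain ⟨b, hbS, hspan, hli⟩ := exists_linearIndependent K S
  have hfb : f ∉ Submodule.span K b := hspan ▸ hne
  have hfb' : f ∉ b := fun h' => hfb (Submodule.subset_span h')
  have hins : LinearIndepOn K id (insert f b) := (linearIndepOn_id_insert hfb').mpr ⟨hli, hfb⟩
  have hL : LinearIndepOn L i (insert f b) := h.linearIndependent_map hins
  rw [linearIndepOn_insert hfb'] at hL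
  refine hL.2 ((Submodule.span_le.mpr ?_) hf)
  rintro _ ⟨g, hg, rfl⟩
  exact h.map_mem_span_image (hspan ▸ Submodule.subset_span hg)

/-- Every element is a quotient of `L`-combinations of `K`-independent elements of `F`. -/
theorem exists_sum_div_sum (h : IsConstantExtension K L i) (e : E) :
    ∃ (n : ℕ) (f : Fin n → F) (c d : Fin n → L), LinearIndependent K f ∧
      (∑ j, d j • i (f j)) ≠ 0 ∧ e = (∑ j, c j • i (f j)) / ∑ j, d j • i (f j) := by
  obtain ⟨n, f, hf, d, hd, hall⟩ := h.exists_frame {e}
  obtain ⟨c, hc⟩ := hall e (Finset.mem_singleton_self e)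
  exact ⟨n, f, c, d, hf, hd, by rw [eq_div_iff hd, hc]⟩

theorem transcendental_map (h : IsConstantExtension K L i) {x : F} (hx : Transcendental K x) :
    Transcendental L (i x) := by
  have h1 : LinearIndependent K fun k : ℕ => x ^ k := by
    have := (Polynomial.basisMonomials K).linearIndependent.map' (Polynomial.aeval x).toLinearMap
      (LinearMap.ker_eq_bot.mpr (transcendental_iff_injective.mp hx))
    simpa [Function.comp_def, Polynomial.aeval_monomial] using this
  have h2 := h.linearIndependent_map h1
  refine transcendental_iff.mpr fun p hp => ?_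
  rw [Polynomial.aeval_eq_sum_range] at hp
  ext k
  by_cases hk : k < p.natDegree + 1
  · exact linearIndependent_iff'.mp h2 (Finset.range (p.natDegree + 1)) (fun k => p.coeff k)
      (by simpa using hp) k (Finset.mem_range.mpr hk)
  · exact (Polynomial.coeff_eq_zero_of_natDegree_lt (by omega)).trans
      (Polynomial.coeff_zero k).symm

/-- Extending constants preserves the degree over `K(x)`. -/
theorem finite_and_finrank_eq (h : IsConstantExtension K L i) {x : F} (hx : Transcendental K x)
    [FiniteDimensional (IntermediateField.adjoin K {x}) F] :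
    FiniteDimensional (IntermediateField.adjoin L {i x}) E ∧
      Module.finrank (IntermediateField.adjoin L {i x}) E =
        Module.finrank (IntermediateField.adjoin K {x}) F := by
  classical
  let K' := IntermediateField.adjoin K {x}
  let L' := IntermediateField.adjoin L {i x}
  let b := Module.finBasis K' F
  have hmap : ∀ a : K', i a ∈ L' := by
    rintro ⟨a, ha⟩
    induction ha using IntermediateField.adjoin_induction with
    | mem y hy =>
      obtain rfl := Set.mem_singleton_iff.mp hy
      exact IntermediateField.mem_adjoin_simple_self L _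
    | algebraMap a =>
      show i (algebraMap K F a) ∈ L'
      rw [h.commutes]
      exact L'.algebraMap_mem _
    | add y z _ _ hy hz => simpa using add_mem hy hz
    | mul y z _ _ hy hz => simpa using mul_mem hy hz
    | inv y _ hy => simpa using inv_mem hy
  have hli : LinearIndependent L' fun j => i (b j) := h.linearIndependent_adjoin hx b.linearIndependent
  -- the span of the basis is a subfield containing the range of `i`
  have hrange : ∀ f : F, i f ∈ Submodule.span L' (Set.range fun j => i (b j)) := by
    intro f
    rw [← b.sum_repr f, map_sum]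
    refine Submodule.sum_mem _ fun j _ => ?_
    rw [Algebra.smul_def, map_mul]
    exact Submodule.smul_mem _ (⟨i (b.repr f j), hmap _⟩ : L') (Submodule.subset_span ⟨j, rfl⟩)
  let A : Subalgebra L' E := Algebra.adjoin L' (Set.range i)
  have hA : Subalgebra.toSubmodule A ≤ Submodule.span L' (Set.range fun j => i (b j)) := by
    rw [Algebra.adjoin_eq_span_of_subset]
    · exact Submodule.span_le.mpr (by rintro _ ⟨f, rfl⟩; exact hrange f)
    · exact fun y hy => Submodule.subset_span ((Submonoid.closure_le (S := MonoidHom.mrange (i : F →* E))).mpr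
        (fun z hz => hz) hy)
  haveI : FiniteDimensional L' (Submodule.span L' (Set.range fun j => i (b j))) :=
    FiniteDimensional.span_of_finite L' (Set.finite_range _)
  haveI : FiniteDimensional L' A :=
    Submodule.finiteDimensional_of_le hA
  have hinv : ∀ y ∈ A, y⁻¹ ∈ A := fun y hy => Subalgebra.inv_mem_of_algebraic A (x := ⟨y, hy⟩)
    ((Algebra.IsAlgebraic.isAlgebraic (R := L') (⟨y, hy⟩ : A)).algHom A.val)
  have htop : ∀ e : E, e ∈ A := by
    intro e
    have he : e ∈ IntermediateField.adjoin L (Set.range i) := h.adjoin_eq_top ▸ trivial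
    induction he using IntermediateField.adjoin_induction with
    | mem y hy => exact Algebra.subset_adjoin hy
    | algebraMap a => exact A.algebraMap_mem (algebraMap L L' a)
    | add y z _ _ hy hz => exact add_mem hy hz
    | mul y z _ _ hy hz => exact mul_mem hy hz
    | inv y _ hy => exact hinv y hy
  let B := Module.Basis.mk hli (fun e _ => hA (htop e))
  exact ⟨B.finiteDimensional_of_finite,
    by rw [Module.finrank_eq_card_basis B, Fintype.card_fin]⟩

theorem exists_semilinearAut (h : IsConstantExtension K L i) (σ : L ≃ₐ[K] L) :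
    ∃ g : SemilinearAut L E, SemilinearAut.baseAut g = σ.toRingEquiv ∧
      ∀ f, g • i f = i f := by
  letI : Algebra K E := ((algebraMap L E).comp (algebraMap K L)).toAlgebra
  haveI : IsScalarTower K L E := IsScalarTower.of_algebraMap_eq fun _ => rfl
  let iₐ : F →ₐ[K] E := { i with commutes' := h.commutes }
  let φ : TensorProduct K L F →ₐ[L] E :=
    Algebra.TensorProduct.lift (Algebra.ofId L E) iₐ fun _ _ => Commute.all _ _
  have hφ : Function.Injective φ := by
    let bF := Module.Free.chooseBasis K F
    let bT := Algebra.TensorProduct.basis L bF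
    have h2 : LinearIndependent L (φ.toLinearMap ∘ bT) := by
      have := h.linearIndependent_map bF.linearIndependent
      simpa [Function.comp_def, bT, φ, iₐ] using this
    refine (injective_iff_map_eq_zero φ).mpr fun z hz =>
      bT.repr.map_eq_zero_iff.mp (linearIndependent_iff.mp h2 _ ?_)
    rw [← Finsupp.apply_linearCombination, bT.linearCombination_repr]
    exact hz
  letI : Algebra (TensorProduct K L F) E := φ.toRingHom.toAlgebra
  haveI : IsDomain (TensorProduct K L F) := hφ.isDomain φ
  haveI : FaithfulSMul (TensorProduct K L F) E :=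
    (faithfulSMul_iff_algebraMap_injective _ _).mpr hφ
  haveI : IsFractionRing (TensorProduct K L F) E := IsFractionRing.of_field _ _ fun e => by
    obtain ⟨n, f, c, d, -, -, he⟩ := h.exists_sum_div_sum e
    refine ⟨∑ j, c j ⊗ₜ f j, ∑ j, d j ⊗ₜ f j, ?_⟩
    simp [RingHom.algebraMap_toAlgebra, φ, iₐ, he, Algebra.smul_def]
  let r : TensorProduct K L F ≃+* TensorProduct K L F :=
    (Algebra.TensorProduct.congr σ AlgEquiv.refl).toRingEquiv
  let g : E ≃+* E := IsFractionRing.ringEquivOfRingEquiv r
  have hg : ∀ z, g (φ z) = φ (r z) := IsFractionRing.ringEquivOfRingEquiv_algebraMap r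
  refine ⟨⟨(g, σ.toRingEquiv), fun a => ?_⟩, rfl, fun f => ?_⟩
  · have := hg (a ⊗ₜ 1)
    simpa [r, φ, iₐ] using this
  · have := hg (1 ⊗ₜ f)
    show g (i f) = i f
    simpa [r, φ, iₐ] using this

theorem semilinearAut_ext (h : IsConstantExtension K L i) {g g' : SemilinearAut L E}
    (hb : SemilinearAut.baseAut g = SemilinearAut.baseAut g')
    (hi : ∀ f, g • i f = g' • i f) : g = g' := by
  refine Subtype.ext (Prod.ext (RingEquiv.ext fun e => ?_) hb)
  show SemilinearAut.toRingAut g e = SemilinearAut.toRingAut g' e
  have he : e ∈ IntermediateField.adjoin L (Set.range i) := h.adjoin_eq_top ▸ trivial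
  induction he using IntermediateField.adjoin_induction with
  | mem y hy =>
    obtain ⟨f, rfl⟩ := hy
    exact hi f
  | algebraMap a => rw [SemilinearAut.commutes, SemilinearAut.commutes, hb]
  | add y z _ _ hy hz => rw [map_add, map_add, hy, hz]
  | mul y z _ _ hy hz => rw [map_mul, map_mul, hy, hz]
  | inv y _ hy => rw [map_inv₀, map_inv₀, hy]

/-- The automorphism of `E` over `σ` fixing `F`. -/
def extAut (h : IsConstantExtension K L i) : (L ≃ₐ[K] L) →* SemilinearAut L E where
  toFun σ := (h.exists_semilinearAut σ).choose
  map_one' := h.semilinearAut_ext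
    ((h.exists_semilinearAut 1).choose_spec.1.trans rfl)
    fun f => ((h.exists_semilinearAut 1).choose_spec.2 f).trans (one_smul _ _).symm
  map_mul' σ τ := h.semilinearAut_ext
    (by
      rw [(h.exists_semilinearAut (σ * τ)).choose_spec.1, SemilinearAut.baseAut_mul,
        (h.exists_semilinearAut σ).choose_spec.1, (h.exists_semilinearAut τ).choose_spec.1]
      rfl)
    fun f => by
      rw [(h.exists_semilinearAut (σ * τ)).choose_spec.2, mul_smul,
        (h.exists_semilinearAut τ).choose_spec.2, (h.exists_semilinearAut σ).choose_spec.2]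

@[simp]
theorem baseAut_extAut (h : IsConstantExtension K L i) (σ : L ≃ₐ[K] L) :
    SemilinearAut.baseAut (h.extAut σ) = σ.toRingEquiv :=
  (h.exists_semilinearAut σ).choose_spec.1

@[simp]
theorem extAut_smul_map (h : IsConstantExtension K L i) (σ : L ≃ₐ[K] L) (f : F) :
    h.extAut σ • i f = i f :=
  (h.exists_semilinearAut σ).choose_spec.2 f

variable [IsAlgClosed K] [IsAlgClosed L]

/-- A finite dimensional stable subspace is spanned by its members from `F`. -/
theorem eq_span_of_stable (h : IsConstantExtension K L i) (V : Submodule L E)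
    [FiniteDimensional L V] (hV : ∀ σ : L ≃ₐ[K] L, ∀ v ∈ V, h.extAut σ • v ∈ V) :
    V = Submodule.span L (i '' {f | i f ∈ V}) := by
  classical
  refine le_antisymm ?_ (Submodule.span_le.mpr (by rintro _ ⟨f, hf, rfl⟩; exact hf))
  obtain ⟨t, ht⟩ : V.FG := Module.Finite.iff_fg.mp inferInstance
  obtain ⟨n, f, hf, d, hd, hall⟩ := h.exists_frame t
  let S : (Fin n → L) →ₗ[L] E := Fintype.linearCombination L fun j => i (f j)
  have hS : Function.Injective S :=
    linearIndependent_iff_injective_fintypeLinearCombination.mp (h.linearIndependent_map hf)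
  have hSσ : ∀ (σ : L ≃ₐ[K] L) (c : Fin n → L),
      h.extAut σ • S c = S fun j => σ (c j) := fun σ c => by
    simp only [S, Fintype.linearCombination_apply, Finset.smul_sum, Algebra.smul_def, smul_mul',
      SemilinearAut.smul_algebraMap, baseAut_extAut, extAut_smul_map]
    rfl
  let W : Submodule L (Fin n → L) :=
    { carrier := {c | ∀ v ∈ V, v * S c ∈ LinearMap.range S}
      zero_mem' := fun v _ => by simp
      add_mem' := fun {c c'} hc hc' v hv => by
        rw [map_add, mul_add]
        exact add_mem (hc v hv) (hc' v hv)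
      smul_mem' := fun a c hc v hv => by
        rw [map_smul, mul_smul_comm]
        exact Submodule.smul_mem _ a (hc v hv) }
  have hdW : d ∈ W := by
    intro v hv
    rw [← ht] at hv
    induction hv using Submodule.span_induction with
    | mem y hy =>
      obtain ⟨c, hc⟩ := hall y hy
      exact ⟨c, by simpa [S, Fintype.linearCombination_apply] using hc.symm⟩
    | zero => simp
    | add y z _ _ hy hz => rw [add_mul]; exact add_mem hy hz
    | smul a y _ hy => rw [smul_mul_assoc]; exact Submodule.smul_mem _ a hy
  have hW : ∀ σ : L ≃ₐ[K] L, ∀ c ∈ W, (fun j => σ (c j)) ∈ W := by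
    intro σ c hc v hv
    obtain ⟨c', hc'⟩ := hc _ (hV σ⁻¹ v hv)
    refine ⟨fun j => σ (c' j), ?_⟩
    have h1 := congrArg (h.extAut σ • ·) hc'
    rwa [smul_mul', ← mul_smul, ← map_mul, mul_inv_cancel, map_one, one_smul, hSσ, hSσ] at h1
  obtain ⟨q, hqW, hq0⟩ : ∃ q : Fin n → K, vecMap L q ∈ W ∧ S (vecMap L q) ≠ 0 := by
    by_contra hcon
    push Not at hcon
    have hle : W ≤ LinearMap.ker S := by
      rw [eq_span_rational_of_stable W hW]
      refine Submodule.span_le.mpr ?_
      rintro _ ⟨q, hq, rfl⟩
      exact LinearMap.mem_ker.mpr (hcon q hq)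
    exact hd (by simpa [S, Fintype.linearCombination_apply, Algebra.smul_def] using hle hdW)
  have hiS : ∀ q : Fin n → K, S (vecMap L q) = i (∑ j, q j • f j) := fun q => by
    simp [S, Fintype.linearCombination_apply, map_sum, Algebra.smul_def, h.commutes]
  let U : Submodule L (Fin n → L) := V.comap ((S (vecMap L q))⁻¹ • S)
  have hU : ∀ σ : L ≃ₐ[K] L, ∀ c ∈ U, (fun j => σ (c j)) ∈ U := by
    intro σ c hc
    have h1 := hV σ _ hc
    change h.extAut σ • ((S (vecMap L q))⁻¹ * S c) ∈ V at h1
    rw [smul_mul', smul_inv'', hiS, extAut_smul_map, hSσ, ← hiS] at h1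
    exact h1
  intro v hv
  obtain ⟨c, hc⟩ := hqW v hv
  have hv' : v = (S (vecMap L q))⁻¹ * S c := by rw [hc]; field_simp
  have hcU : c ∈ U := by
    show (S (vecMap L q))⁻¹ * S c ∈ V
    rwa [← hv']
  rw [eq_span_rational_of_stable U hU] at hcU
  rw [hv']
  show ((S (vecMap L q))⁻¹ • S) c ∈ _
  refine (Submodule.span_le (p := (Submodule.span L _).comap _)).mpr ?_ hcU
  rintro _ ⟨a, ha, rfl⟩
  refine Submodule.subset_span ⟨(∑ j, q j • f j)⁻¹ * ∑ j, a j • f j, ?_, ?_⟩
  · show i _ ∈ V
    rw [map_mul, map_inv₀, ← hiS, ← hiS]
    exact ha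
  · rw [map_mul, map_inv₀, ← hiS, ← hiS]
    rfl

end IsConstantExtension

end FermatLib.Curve
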